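import Fermat.Agent.StrongApproximation.Basic
import Fermat.Agent.SerreLarge.Klein
import Mathlib.GroupTheory.FreeGroup.Basic
import Mathlib.GroupTheory.Perm.Cycle.Type
import Mathlib.LinearAlgebra.Matrix.ToLinearEquiv

/-!
# Proper subgroups of `SL₂ (𝔽_p)`

Either the elements of order `p` share a fixed line, or they generate everything; without elements
of order `p` the group is commutative up to index two or of exponent `120`.  So one word vanishes
on every proper subgroup.
-/

set_option autoImplicit false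

noncomputable section

namespace FA.StrongApprox

open Matrix
open scoped commutatorElement

variable {p : ℕ} [hp : Fact p.Prime]

/-- The word. -/
def word {G : Type*} [Group G] (a b : G) : G := ⁅⁅a, b⁆, ⁅a, b⁻¹⁆⁆

theorem map_word {G G' : Type*} [Group G] [Group G'] (f : G →* G') (a b : G) :
    f (word a b) = word (f a) (f b) := by
  simp [word, commutatorElement_def]

theorem word_eq_one_of_commute {G : Type*} [Group G] {a b : G} (h : Commute a b) :
    word a b = 1 := by
  rw [word, commutatorElement_eq_one_iff_commute.2 h,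
    commutatorElement_eq_one_iff_commute.2 h.inv_right]
  simp

theorem U_eq {g : SL2 (ZMod p)} (h0 : g.1 1 0 = 0) (h1 : g.1 0 0 = 1) : g = U (g.1 0 1) := by
  have hdet := g.2
  rw [det_fin_two, h0, h1, one_mul, mul_zero, sub_zero] at hdet
  ext i j
  fin_cases i <;> fin_cases j <;> simp [U, h0, h1, hdet]

theorem L_eq {g : SL2 (ZMod p)} (h0 : g.1 0 1 = 0) (h1 : g.1 1 1 = 1) : g = L (g.1 1 0) := by
  have hdet := g.2
  rw [det_fin_two, h0, h1, mul_one, zero_mul, sub_zero] at hdet
  ext i j
  fin_cases i <;> fin_cases j <;> simp [L, h0, h1, hdet]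

/-- Two transvections of different lines generate. -/
theorem eq_top_of_transvections {H : Subgroup (SL2 (ZMod p))} {s t : ZMod p} (hs : s ≠ 0)
    (ht : t ≠ 0) (hU : U s ∈ H) (hL : L t ∈ H) : H = ⊤ := by
  refine eq_top_of_U_L local_field (fun x => ?_) fun x => ?_
  · have h := U_nsmul (x / s).val s
    rw [ZMod.natCast_zmod_val, div_mul_cancel₀ _ hs] at h
    rw [h]
    exact H.pow_mem hU _
  · have h := L_nsmul (x / t).val t
    rw [ZMod.natCast_zmod_val, div_mul_cancel₀ _ ht] at h
    rw [h]
    exact H.pow_mem hL _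

/-- An element of order `p` is, in a suitable basis, upper triangular with ones on the diagonal. -/
theorem exists_conj_eq_U {g : SL2 (ZMod p)} (hg : g ^ p = 1) :
    ∃ P : SL2 (ZMod p), ∃ s, P⁻¹ * g * P = U s := by
  have hN : (g.1 - 1) ^ p = 0 := by
    have : CharP (Matrix (Fin 2) (Fin 2) (ZMod p)) p :=
      inferInstanceAs (CharP (Matrix _ _ (ZMod p)) p)
    rw [sub_pow_char_of_commute p (Commute.one_right _), one_pow, ← SpecialLinearGroup.coe_pow, hg,
      SpecialLinearGroup.coe_one, sub_self]
  have hsq := SerreLarge.mul_self_eq_zero_of_pow hp.out.ne_zero hN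
  have hdet : (g.1 - 1).det = 0 := by
    have := congrArg Matrix.det hsq
    rw [det_mul, Matrix.det_zero] at this
    exact mul_self_eq_zero.1 this
  obtain ⟨v, hv, hgv⟩ := exists_mulVec_eq_zero_iff.2 hdet
  obtain ⟨x, y, hxy⟩ : ∃ x y : ZMod p, v 0 * y - x * v 1 = 1 := by
    by_cases h0 : v 0 = 0
    · have h1 : v 1 ≠ 0 := fun h1 => hv (funext fun i => by fin_cases i <;> simp [h0, h1])
      exact ⟨-(v 1)⁻¹, 0, by simp [h1]⟩
    · exact ⟨0, (v 0)⁻¹, by simp [h0]⟩
  let P : SL2 (ZMod p) := ⟨!![v 0, x; v 1, y], by rw [det_fin_two_of]; linear_combination hxy⟩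
  have e0 := congrFun hgv 0
  have e1 := congrFun hgv 1
  simp only [mulVec, dotProduct, Fin.sum_univ_two, Matrix.sub_apply, one_apply_eq,
    one_apply_ne (show (0 : Fin 2) ≠ 1 by decide), one_apply_ne (show (1 : Fin 2) ≠ 0 by decide),
    sub_zero, Pi.zero_apply] at e0 e1
  refine ⟨P, (P⁻¹ * g * P).1 0 1, U_eq ?_ ?_⟩
  · simp [P, Matrix.mul_apply, Matrix.vecMul, dotProduct, Fin.sum_univ_two,
      SpecialLinearGroup.coe_inv, adjugate_fin_two]
    linear_combination v 0 * e1 - v 1 * e0
  · simp [P, Matrix.mul_apply, Matrix.vecMul, dotProduct, Fin.sum_univ_two,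
      SpecialLinearGroup.coe_inv, adjugate_fin_two]
    linear_combination y * e0 - x * e1 + hxy

/-- Without a common fixed line, elements of order `p` give everything. -/
theorem borel_or_top {H : Subgroup (SL2 (ZMod p))} {s : ZMod p} (hs : s ≠ 0) (hU : U s ∈ H) :
    (∀ h ∈ H, h.1 1 0 = 0) ∨ H = ⊤ := by
  refine or_iff_not_imp_left.2 fun hne => ?_
  push Not at hne
  obtain ⟨h, hh, hc⟩ := hne
  set x := h.1 0 0 / h.1 1 0 with hx
  set g := U (-x) * (h * U s * h⁻¹) * U x
  set K := H.map (MulAut.conj (U (-x))).toMonoidHom with hK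
  have hinv : (U (-x) : SL2 (ZMod p))⁻¹ = U x :=
    inv_eq_of_mul_eq_one_right (by rw [← U_add, neg_add_cancel, U_zero])
  have hgK : g ∈ K := ⟨h * U s * h⁻¹, H.mul_mem (H.mul_mem hh hU) (H.inv_mem hh), by
    simp [g, MulAut.conj_apply, hinv]⟩
  have hUK : U s ∈ K := ⟨U s, hU, by
    simp only [MulEquiv.coe_toMonoidHom, MulAut.conj_apply, hinv, ← U_add]
    congr 1
    ring⟩
  have hd := h.2
  rw [det_fin_two] at hd
  have g01 : g.1 0 1 = 0 := by
    simp [g, U, Matrix.mul_apply, Matrix.vecMul, dotProduct, Fin.sum_univ_two,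
      SpecialLinearGroup.coe_inv, adjugate_fin_two,
      hx]
    field_simp
    ring
  have g11 : g.1 1 1 = 1 := by
    simp [g, U, Matrix.mul_apply, Matrix.vecMul, dotProduct, Fin.sum_univ_two,
      SpecialLinearGroup.coe_inv, adjugate_fin_two,
      hx]
    field_simp
    linear_combination hd
  have g10 : g.1 1 0 ≠ 0 := by
    have : g.1 1 0 = -(s * h.1 1 0 ^ 2) := by
      simp [g, U, Matrix.mul_apply, Matrix.vecMul, dotProduct, Fin.sum_univ_two,
      SpecialLinearGroup.coe_inv, adjugate_fin_two]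
      ring
    rw [this]
    exact neg_ne_zero.2 (mul_ne_zero hs (pow_ne_zero _ hc))
  rw [L_eq g01 g11] at hgK
  have hKtop := eq_top_of_transvections hs g10 hUK hgK
  rw [hK, ← Subgroup.map_top_of_surjective (MulAut.conj (U (-x))).toMonoidHom
    (MulEquiv.surjective _)] at hKtop
  exact Subgroup.map_injective (MulAut.conj (U (-x))).injective hKtop

theorem commutator_upper {a b : SL2 (ZMod p)} (ha : a.1 1 0 = 0) (hb : b.1 1 0 = 0) :
    ⁅a, b⁆.1 1 0 = 0 ∧ ⁅a, b⁆.1 0 0 = 1 := by
  have hda := a.2
  have hdb := b.2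
  rw [det_fin_two, ha, mul_zero, sub_zero] at hda
  rw [det_fin_two, hb, mul_zero, sub_zero] at hdb
  constructor <;>
    simp [commutatorElement_def, Matrix.mul_apply, Fin.sum_univ_two,
      SpecialLinearGroup.coe_inv,
      adjugate_fin_two, ha, hb]
  linear_combination hdb * (a.1 0 0 * a.1 1 1) + hda

/-- **The word vanishes on the proper subgroups.** -/
theorem word_eq_one (hp5 : 5 ≤ p) {H : Subgroup (SL2 (ZMod p))} (hH : H ≠ ⊤)
    {u v : SL2 (ZMod p)} (hu : u ∈ H) (hv : v ∈ H) : word (u ^ 120) (v ^ 120) = 1 := by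
  classical
  have : Finite (SL2 (ZMod p)) := Subtype.finite
  by_cases hdvd : p ∣ Nat.card H
  · obtain ⟨g, hg⟩ := exists_prime_orderOf_dvd_card' p hdvd
    have hgp : g ^ p = 1 := by
      have := pow_orderOf_eq_one g
      rwa [hg] at this
    obtain ⟨P, s, hPs⟩ := exists_conj_eq_U (g := g.1) (congrArg Subtype.val hgp)
    have hs : s ≠ 0 := by
      rintro rfl
      rw [U_zero, mul_assoc, inv_mul_eq_one, eq_comm, mul_eq_right] at hPs
      have : g = 1 := Subtype.ext hPs
      rw [this, orderOf_one] at hg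
      omega
    set φ := (MulAut.conj P⁻¹)
    set K := H.map φ.toMonoidHom with hK
    have hUK : U s ∈ K := ⟨g.1, g.2, by simp [φ, hPs]⟩
    rcases borel_or_top hs hUK with hB | htop
    · have hm : ∀ x ∈ H, (φ x).1 1 0 = 0 := fun x hx => hB _ ⟨x, hx, rfl⟩
      refine φ.injective ?_
      rw [map_one, ← MulEquiv.coe_toMonoidHom, map_word]
      have hA := hm _ (H.pow_mem hu 120)
      have hB' := hm _ (H.pow_mem hv 120)
      have hB'' := hm _ (H.inv_mem (H.pow_mem hv 120))
      rw [map_inv] at hB''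
      simp only [MulEquiv.coe_toMonoidHom]
      obtain ⟨c0, c1⟩ := commutator_upper hA hB'
      obtain ⟨d0, d1⟩ := commutator_upper hA hB''
      rw [word, commutatorElement_eq_one_iff_commute, U_eq c0 c1, U_eq d0 d1]
      exact (U_add _ _).symm.trans ((congrArg U (add_comm _ _)).trans (U_add _ _))
    · rw [hK, ← Subgroup.map_top_of_surjective φ.toMonoidHom φ.surjective] at htop
      exact absurd (Subgroup.map_injective φ.injective htop) hH
  · let r : H →* Matrix (Fin 2) (Fin 2) (ZMod p) :=
      ({ toFun := fun g => g.1, map_one' := rfl, map_mul' := fun _ _ => rfl } :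
        SL2 (ZMod p) →* Matrix (Fin 2) (Fin 2) (ZMod p)).comp H.subtype
    have hr : Function.Injective r := fun x y h => Subtype.ext (Subtype.ext h)
    have h2 : (2 : ZMod p) ≠ 0 := fun h => by
      have := (ZMod.natCast_eq_zero_iff 2 p).1 (by exact_mod_cast h)
      have := Nat.le_of_dvd two_pos this
      omega
    have hcard : (Nat.card H : ZMod p) ≠ 0 := fun h => hdvd ((ZMod.natCast_eq_zero_iff _ _).1 h)
    by_cases hex : ∃ s : H, ∀ n, 0 < n → n < 6 → ¬ SerreLarge.IsScalarMat (r (s ^ n))
    · obtain ⟨s, hs⟩ := hex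
      obtain ⟨C, hC, -, hcomm, -⟩ := SerreLarge.dihedral_of_order_prime_to_char r hr h2 hcard hs
      have hsq : ∀ x : H, x * x ∈ C := by
        intro x
        rcases Nat.lt_or_eq_of_le hC with h | h
        · have h0 : C.index ≠ 0 := Subgroup.index_ne_zero_of_finite
          rw [Subgroup.index_eq_one.1 (by omega : C.index = 1)]
          trivial
        · exact Subgroup.mul_self_mem_of_index_two h x
      have hpow : ∀ x : H, x ^ 120 ∈ C := fun x => by
        rw [show 120 = 2 * 60 from rfl, pow_mul, pow_two]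
        exact C.pow_mem (hsq x) 60
      refine word_eq_one_of_commute ?_
      exact congrArg Subtype.val (hcomm _ (hpow ⟨u, hu⟩) _ (hpow ⟨v, hv⟩))
    · push Not at hex
      have h120 : ∀ x : H, x ^ 120 = 1 := fun x => by
        obtain ⟨n, hn0, hn6, ha, hb, hc⟩ := hex x
        have hdet : (r (x ^ n)).det = 1 := (x ^ n).1.2
        rw [det_fin_two, ha, hb, mul_zero, sub_zero, ← hc] at hdet
        have h2n : x ^ (n * 2) = 1 := by
          refine hr ?_
          rw [pow_mul, map_pow r (x ^ n), map_one]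
          generalize r (x ^ n) = M at ha hb hc hdet ⊢
          ext i j
          fin_cases i <;> fin_cases j <;>
            simp [pow_two, Matrix.mul_apply, Fin.sum_univ_two, ha, hb, ← hc, hdet]
        obtain ⟨j, hj⟩ : n * 2 ∣ 120 := by interval_cases n <;> norm_num
        rw [hj, pow_mul, h2n, one_pow]
      have hu' : u ^ 120 = 1 := congrArg Subtype.val (h120 ⟨u, hu⟩)
      rw [hu']
      exact word_eq_one_of_commute (Commute.one_left _)

end FA.StrongApprox

end
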