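import Fermat.Agent.StrongApproximation.Lift
import Fermat.Agent.StrongApproximation.Subgroups
import Fermat.Agent.Root.SummaryTitsAlternative
import Mathlib.Algebra.Field.ZMod
import Mathlib.Data.Nat.Prime.Infinite
import Mathlib.GroupTheory.Finiteness

/-!
# Strong approximation in `SL₂ (ℤ)`

Moduli are joined by the Chinese remainder theorem, the largest prime first.  A free subgroup makes
the word of `Subgroups` non-trivial, so only finitely many primes fail, and conversely a virtually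
solvable group fails for all large primes.
-/

set_option autoImplicit false

noncomputable section

namespace FA.StrongApprox

open Matrix
open scoped commutatorElement

variable {Γ : Subgroup (SL2 ℤ)}

theorem red_eq_of_coprime {a b : ℕ} (hab : a.Coprime b) {g g' : SL2 (ZMod (a * b))}
    (ha : SpecialLinearGroup.map (ZMod.castHom (dvd_mul_right a b) (ZMod a)) g =
      SpecialLinearGroup.map (ZMod.castHom (dvd_mul_right a b) (ZMod a)) g')
    (hb : SpecialLinearGroup.map (ZMod.castHom (dvd_mul_left b a) (ZMod b)) g =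
      SpecialLinearGroup.map (ZMod.castHom (dvd_mul_left b a) (ZMod b)) g') : g = g' := by
  refine Subtype.ext (Matrix.ext fun i j => (ZMod.chineseRemainder hab).injective ?_)
  have h := RingHom.ext_zmod (ZMod.chineseRemainder hab).toRingHom
    ((ZMod.castHom (dvd_mul_right a b) (ZMod a)).prod (ZMod.castHom (dvd_mul_left b a) (ZMod b)))
  have key : ∀ x, ZMod.chineseRemainder hab x =
      (ZMod.castHom (dvd_mul_right a b) (ZMod a) x, ZMod.castHom (dvd_mul_left b a) (ZMod b) x) :=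
    fun x => RingHom.congr_fun h x
  rw [key, key]
  exact Prod.ext (congrFun (congrFun (congrArg Subtype.val ha) i) j)
    (congrFun (congrFun (congrArg Subtype.val hb) i) j)

/-- **Primes decide all moduli.** -/
theorem onto_of_primes {S : ℕ} (hS : 5 ≤ S) (h : ∀ p, p.Prime → S ≤ p → Onto Γ p) :
    ∀ m : ℕ, 0 < m → (∀ p, p.Prime → p ∣ m → S ≤ p) → Onto Γ m := by
  intro m
  induction m using Nat.strong_induction_on with
  | h m ih =>
    intro hm hfac
    by_cases hm1 : m = 1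
    · subst hm1
      refine eq_top_iff.2 fun g _ => ⟨1, Γ.one_mem, ?_⟩
      ext i j
      exact Subsingleton.elim _ _
    have hne : m.primeFactors.Nonempty := Nat.nonempty_primeFactors.2 (by omega)
    set p := m.primeFactors.max' hne
    have hpm := m.primeFactors.max'_mem hne
    have hp : p.Prime := Nat.prime_of_mem_primeFactors hpm
    have : Fact p.Prime := ⟨hp⟩
    have hpd : p ∣ m := Nat.dvd_of_mem_primeFactors hpm
    have hp5 : 5 ≤ p := hS.trans (hfac p hp hpd)
    obtain ⟨k, b, hpb, hmb⟩ := Nat.exists_eq_pow_mul_and_not_dvd hm.ne' p hp.ne_one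
    obtain ⟨k, rfl⟩ : ∃ k', k = k' + 1 := by
      refine Nat.exists_eq_add_one.2 (Nat.pos_of_ne_zero fun hk => hpb ?_)
      rw [hk, pow_zero, one_mul] at hmb
      exact hpd.trans (dvd_of_eq hmb)
    have hmax : ∀ q ∈ m.primeFactors, q ≤ p := fun q hq => Finset.le_max' _ q hq
    clear_value p
    subst hmb
    have hb0 : 0 < b := Nat.pos_of_ne_zero fun e => by simp [e] at hm
    have hblt : b < p ^ (k + 1) * b :=
      lt_mul_of_one_lt_left hb0 (Nat.one_lt_pow k.succ_ne_zero hp.one_lt)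
    have hbonto : Onto Γ b :=
      ih b hblt hb0 fun q hq hqb => hfac q hq (hqb.trans (dvd_mul_left _ _))
    have hpk : Onto Γ (p ^ (k + 1)) := onto_pow hp5 (h p hp (hfac p hp hpd)) k
    have : NeZero b := ⟨hb0.ne'⟩
    have hsmall : ∀ q, q.Prime → q ∣ b → q < p := fun q hq hqb =>
      lt_of_le_of_ne (hmax _ (Nat.mem_primeFactors.2
        ⟨hq, hqb.trans (dvd_mul_left _ _), hm.ne'⟩)) fun e => hpb (e ▸ hqb)
    have : Finite (SL2 (ZMod b)) := Subtype.finite
    set N := Nat.card (SL2 (ZMod b))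
    have hN : N.Coprime (p ^ (k + 1)) :=
      Nat.Coprime.pow_right _ (hp.coprime_iff_not_dvd.2 (not_dvd_card hp5 hsmall)).symm
    let K : Subgroup (SL2 (ZMod (p ^ (k + 1)))) :=
      (Γ ⊓ (red b).ker).map (red (p ^ (k + 1)))
    have hgen : ∀ E : ZMod (p ^ (k + 1)) → SL2 (ZMod (p ^ (k + 1))),
        (∀ (n : ℕ) t, E ((n : ZMod _) * t) = E t ^ n) → ∀ t, E t ∈ K := by
      intro E hE t
      obtain ⟨γ, hγ, he⟩ := hpk.exists (E ((N : ZMod (p ^ (k + 1)))⁻¹ * t))
      refine ⟨γ ^ N, ⟨Γ.pow_mem hγ N, ?_⟩, ?_⟩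
      · show red b (γ ^ N) = 1
        rw [map_pow]
        exact pow_card_eq_one'
      · rw [map_pow, he, ← hE, ← mul_assoc, ZMod.mul_inv_of_unit _
          ((ZMod.isUnit_iff_coprime _ _).2 hN), one_mul]
    have hK : K = ⊤ :=
      eq_top_of_U_L (local_zmod_pow k) (hgen U U_nsmul) (hgen L L_nsmul)
    refine eq_top_iff.2 fun g _ => ?_
    have hcop : (p ^ (k + 1)).Coprime b :=
      Nat.Coprime.pow_left _ (hp.coprime_iff_not_dvd.2 hpb)
    obtain ⟨γ, hγ, hγb⟩ :=
      hbonto.exists (SpecialLinearGroup.map (ZMod.castHom (dvd_mul_left b _) (ZMod b)) g)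
    have hδ : (red (p ^ (k + 1)) γ)⁻¹ *
        SpecialLinearGroup.map (ZMod.castHom (dvd_mul_right _ b) (ZMod (p ^ (k + 1)))) g ∈ K := by
      rw [hK]
      trivial
    obtain ⟨δ, ⟨hδΓ, hδb⟩, hδp⟩ := hδ
    refine ⟨γ * δ, Γ.mul_mem hγ hδΓ, red_eq_of_coprime hcop ?_ ?_⟩
    · rw [castHom_red, map_mul, hδp, mul_inv_cancel_left]
    · rw [castHom_red, map_mul, hγb, show red b δ = 1 from hδb, mul_one]

theorem word_value_ne_one :
    word ((U 1 : SL2 ℤ) ^ 120) ((L 1 : SL2 ℤ) ^ 120) ≠ 1 := by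
  rw [← U_nsmul, ← L_nsmul]
  decide +kernel

/-- **A free subgroup gives surjectivity modulo almost all primes.** -/
theorem exists_bound_of_free {f : FreeGroup (Fin 2) →* Γ} (hf : Function.Injective f) :
    ∃ S, 5 ≤ S ∧ ∀ p, p.Prime → S ≤ p → Onto Γ p := by
  set w := word (FreeGroup.of (0 : Fin 2) ^ 120) (FreeGroup.of (1 : Fin 2) ^ 120)
  have hw : w ≠ 1 := fun h => by
    refine word_value_ne_one ?_
    have e : word (FreeGroup.lift ![(U 1 : SL2 ℤ), L 1] (FreeGroup.of 0) ^ 120)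
        (FreeGroup.lift ![(U 1 : SL2 ℤ), L 1] (FreeGroup.of 1) ^ 120) = 1 := by
      rw [← map_pow, ← map_pow, ← map_word, ← map_one (FreeGroup.lift ![(U 1 : SL2 ℤ), L 1])]
      exact congrArg _ h
    simpa using e
  set M : SL2 ℤ := (f w : SL2 ℤ)
  obtain ⟨i, j, hne⟩ : ∃ i j, M.1 i j ≠ (1 : Matrix (Fin 2) (Fin 2) ℤ) i j := by
    by_contra! h
    refine hw (hf ?_)
    rw [map_one]
    exact Subtype.ext (Subtype.ext (Matrix.ext h))
  set D := (M.1 i j - (1 : Matrix (Fin 2) (Fin 2) ℤ) i j).natAbs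
  refine ⟨D + 5, Nat.le_add_left _ _, fun p hp hle => ?_⟩
  have : Fact p.Prime := ⟨hp⟩
  by_contra hne'
  have h1 : red p M = 1 := by
    have hmem : ∀ x, red p (f x : SL2 ℤ) ∈ Γ.map (red p) := fun x => ⟨_, (f x).2, rfl⟩
    have h := word_eq_one (by omega) hne' (hmem (FreeGroup.of 0)) (hmem (FreeGroup.of 1))
    rw [← h]
    let φ : FreeGroup (Fin 2) →* SL2 (ZMod p) := (red p).comp (Γ.subtype.comp f)
    show φ w = word (φ (FreeGroup.of 0) ^ 120) (φ (FreeGroup.of 1) ^ 120)
    rw [map_word, map_pow, map_pow]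
  have h2 : ((M.1 i j - (1 : Matrix (Fin 2) (Fin 2) ℤ) i j : ℤ) : ZMod p) = 0 := by
    have := congrFun (congrFun (congrArg Subtype.val h1) i) j
    rw [Int.cast_sub, sub_eq_zero]
    refine this.trans ?_
    change (1 : Matrix (Fin 2) (Fin 2) (ZMod p)) i j = _
    by_cases hij : i = j <;> simp [Matrix.one_apply, hij]
  rw [ZMod.intCast_zmod_eq_zero_iff_dvd, Int.natCast_dvd] at h2
  have := Nat.le_of_dvd (Int.natAbs_pos.2 (sub_ne_zero.2 hne)) h2
  omega

/-- `Γ` is virtually solvable. -/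
def VirtSolvable (Γ : Subgroup (SL2 ℤ)) : Prop :=
  ∃ H : Subgroup Γ, H.FiniteIndex ∧ Group.IsSolvable H

theorem not_isSolvable_SL2 {p : ℕ} [hp : Fact p.Prime] (hp5 : 5 ≤ p) :
    ¬ Group.IsSolvable (SL2 (ZMod p)) := by
  intro hs
  have hne : ∀ n : ℕ, 0 < n → n < p → (n : ZMod p) ≠ 0 := fun n h0 hn e =>
    absurd (Nat.le_of_dvd h0 ((ZMod.natCast_eq_zero_iff _ _).1 e)) (by omega)
  have h2 : (2 : ZMod p) ≠ 0 := by exact_mod_cast hne 2 (by omega) (by omega)
  have h3 : (3 : ZMod p) ≠ 0 := by exact_mod_cast hne 3 (by omega) (by omega)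
  let D : SL2 (ZMod p) := ⟨!![2, 0; 0, 2⁻¹], by simp [det_fin_two, h2]⟩
  have hU : ⁅D, U (1 : ZMod p)⁆ = U 3 := by
    refine Subtype.ext ?_
    ext i j
    fin_cases i <;> fin_cases j <;>
      simp [commutatorElement_def, D, U, Matrix.mul_apply,
        Fin.sum_univ_two, adjugate_fin_two, h2] <;> norm_num
  have hL : ⁅D⁻¹, L (1 : ZMod p)⁆ = L 3 := by
    refine Subtype.ext ?_
    ext i j
    fin_cases i <;> fin_cases j <;>
      simp [commutatorElement_def, D, L, Matrix.mul_apply,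
        Fin.sum_univ_two, adjugate_fin_two, h2] <;> norm_num
  have htop : ∀ n, derivedSeries (SL2 (ZMod p)) n = ⊤ := by
    intro n
    induction n with
    | zero => rfl
    | succ n ih =>
      rw [derivedSeries_succ, ih]
      exact eq_top_of_transvections h3 h3
        (hU ▸ Subgroup.commutator_mem_commutator (Subgroup.mem_top D) (Subgroup.mem_top (U 1)))
        (hL ▸ Subgroup.commutator_mem_commutator (Subgroup.mem_top D⁻¹) (Subgroup.mem_top (L 1)))
  obtain ⟨n, hn⟩ := (Group.isSolvable_def _).1 hs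
  rw [htop] at hn
  have h : U (1 : ZMod p) ∈ (⊥ : Subgroup (SL2 (ZMod p))) := hn ▸ trivial
  have h' : U (1 : ZMod p) = 1 := Subgroup.mem_bot.1 h
  have := congrFun (congrFun (congrArg Subtype.val h') 0) 1
  change (1 : ZMod p) = (1 : Matrix (Fin 2) (Fin 2) (ZMod p)) 0 1 at this
  simp at this

/-- **Virtually solvable groups fail for all large primes.** -/
theorem not_onto_of_virtSolvable (h : VirtSolvable Γ) :
    ∃ S, ∀ p, p.Prime → S ≤ p → ¬ Onto Γ p := by
  obtain ⟨H, hH, hs⟩ := h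
  refine ⟨H.index + 5, fun p hp hle honto => ?_⟩
  have : Fact p.Prime := ⟨hp⟩
  let φ : Γ →* SL2 (ZMod p) := (red p).comp Γ.subtype
  have hsurj : Function.Surjective φ := fun g => by
    obtain ⟨γ, hγ, e⟩ := honto.exists g
    exact ⟨⟨γ, hγ⟩, e⟩
  have hgen : ∀ E : ZMod p → SL2 (ZMod p),
      (∀ (n : ℕ) t, E ((n : ZMod p) * t) = E t ^ n) → ∀ t, E t ∈ H.map φ := by
    intro E hE t
    obtain ⟨γ, hγ⟩ := hsurj (E t)
    obtain ⟨j, hj0, hjle, hj⟩ := Subgroup.exists_pow_mem_of_index_ne_zero hH.index_ne_zero γ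
    have h0 : (j : ZMod p) ≠ 0 := fun e =>
      absurd (Nat.le_of_dvd hj0 ((ZMod.natCast_eq_zero_iff _ _).1 e)) (by omega)
    have := (H.map φ).pow_mem (Subgroup.mem_map_of_mem φ hj) ((j : ZMod p)⁻¹).val
    rwa [map_pow, hγ, ← hE, ← hE, ZMod.natCast_zmod_val, ← mul_assoc, inv_mul_cancel₀ h0,
      one_mul] at this
  have htop : H.map φ = ⊤ := eq_top_of_U_L local_field (hgen U U_nsmul) (hgen L L_nsmul)
  refine not_isSolvable_SL2 (p := p) (by omega) ?_
  exact Group.isSolvable_of_surjective (f := φ.comp H.subtype) fun g => by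
    obtain ⟨x, hx, e⟩ : g ∈ H.map φ := htop ▸ trivial
    exact ⟨⟨x, hx⟩, e⟩

/-- Tits, for subgroups of `SL₂ (ℤ)`. -/
theorem virtSolvable_or_free (hΓ : Γ.FG) :
    VirtSolvable Γ ∨ ∃ f : FreeGroup (Fin 2) →* Γ, Function.Injective f := by
  have : Group.FG Γ := (Group.fg_iff_subgroup_fg _).2 hΓ
  refine FA.Summary.tits_alternative_of_faithful (K := ℚ) (n := 2)
    ((SpecialLinearGroup.toGL.comp (SpecialLinearGroup.map (Int.castRingHom ℚ))).comp Γ.subtype)
    fun x y h => ?_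
  refine Subtype.ext (Subtype.ext (Matrix.ext fun i j => Int.cast_injective (α := ℚ) ?_))
  exact congrArg (fun u : GL (Fin 2) ℚ => (u : Matrix (Fin 2) (Fin 2) ℚ) i j) h

end FA.StrongApprox

end
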