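import Mathlib.Data.ZMod.Basic
import Mathlib.GroupTheory.Index
import Mathlib.LinearAlgebra.Matrix.SpecialLinearGroup
import Mathlib.RingTheory.Nilpotent.Basic
import Mathlib.Tactic.LinearCombination

/-!
# Elementary matrices in `SL₂`

They generate over a ring in which one of `a`, `c` is a unit for every column `(a, c)` of a matrix
of determinant one, in particular over `ℤ / p ^ k`.
-/

set_option autoImplicit false

namespace FA.StrongApprox

open Matrix

variable {R : Type*} [CommRing R]

/-- The special linear group of degree two. -/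
abbrev SL2 (R : Type*) [CommRing R] := SpecialLinearGroup (Fin 2) R

/-- Upper elementary matrices. -/
def U (t : R) : SL2 R := ⟨!![1, t; 0, 1], by simp [det_fin_two]⟩

/-- Lower elementary matrices. -/
def L (t : R) : SL2 R := ⟨!![1, 0; t, 1], by simp [det_fin_two]⟩

theorem U_add (s t : R) : U (s + t) = U s * U t := by
  ext i j
  fin_cases i <;> fin_cases j <;> simp [U, Matrix.mul_apply, Fin.sum_univ_two, add_comm]

theorem L_add (s t : R) : L (s + t) = L s * L t := by
  ext i j
  fin_cases i <;> fin_cases j <;> simp [L, Matrix.mul_apply, Fin.sum_univ_two, add_comm]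

theorem U_zero : U (0 : R) = 1 := by
  ext i j
  fin_cases i <;> fin_cases j <;> simp [U]

theorem L_zero : L (0 : R) = 1 := by
  ext i j
  fin_cases i <;> fin_cases j <;> simp [L]

theorem U_nsmul (n : ℕ) (t : R) : U ((n : R) * t) = U t ^ n := by
  induction n with
  | zero => simp [U_zero]
  | succ n ih => rw [Nat.cast_succ, add_one_mul, U_add, ih, pow_succ]

theorem L_nsmul (n : ℕ) (t : R) : L ((n : R) * t) = L t ^ n := by
  induction n with
  | zero => simp [L_zero]
  | succ n ih => rw [Nat.cast_succ, add_one_mul, L_add, ih, pow_succ]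

theorem map_U {S : Type*} [CommRing S] (f : R →+* S) (t : R) :
    SpecialLinearGroup.map f (U t) = U (f t) := by
  ext i j
  fin_cases i <;> fin_cases j <;> simp [U]

theorem map_L {S : Type*} [CommRing S] (f : R →+* S) (t : R) :
    SpecialLinearGroup.map f (L t) = L (f t) := by
  ext i j
  fin_cases i <;> fin_cases j <;> simp [L]

theorem map_comp_apply {S T : Type*} [CommRing S] [CommRing T] (f : R →+* S) (g : S →+* T)
    (x : SL2 R) :
    SpecialLinearGroup.map g (SpecialLinearGroup.map f x) =
      SpecialLinearGroup.map (g.comp f) x := by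
  ext i j
  rfl

/-- `U` with unit lower-left entry. -/
theorem eq_ULU (g : SL2 R) (u : R) (hu : u * g.1 1 0 = 1) :
    g = U ((g.1 0 0 - 1) * u) * L (g.1 1 0) * U ((g.1 1 1 - 1) * u) := by
  have hdet := g.2
  rw [det_fin_two] at hdet
  ext i j
  fin_cases i <;> fin_cases j <;>
    simp [U, L, Matrix.mul_apply, Fin.sum_univ_two]
  · linear_combination -(g.1 0 0 - 1) * hu
  · linear_combination -(g.1 0 1) * hu - u * hdet -
      (g.1 0 0 - 1) * (g.1 1 1 - 1) * u * hu
  · linear_combination -(g.1 1 1 - 1) * hu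

/-- **The elementary matrices generate.** -/
theorem eq_top_of_U_L (hloc : ∀ a b c d : R, a * d - b * c = 1 → IsUnit c ∨ IsUnit a)
    {H : Subgroup (SL2 R)} (hU : ∀ t, U t ∈ H) (hL : ∀ t, L t ∈ H) : H = ⊤ := by
  refine eq_top_iff.2 fun g _ => ?_
  have key : ∀ g : SL2 R, IsUnit (g.1 1 0) → g ∈ H := fun g hg => by
    obtain ⟨u, hu⟩ := hg.exists_left_inv
    rw [eq_ULU g u hu]
    exact H.mul_mem (H.mul_mem (hU _) (hL _)) (hU _)
  by_cases hc : IsUnit (g.1 1 0)
  · exact key g hc
  have hdet := g.2
  rw [det_fin_two] at hdet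
  obtain ⟨a, ha⟩ := ((hloc _ _ _ _ hdet).resolve_left hc).exists_left_inv
  have hmul : L ((1 - g.1 1 0) * a) * g ∈ H := key _ (by
    have : (L ((1 - g.1 1 0) * a) * g).1 1 0 = 1 := by
      simp [L, Matrix.mul_apply, Fin.sum_univ_two]
      linear_combination (1 - g.1 1 0) * ha
    rw [this]
    exact isUnit_one)
  exact (H.mul_mem_cancel_left (hL _)).1 hmul

theorem local_field {F : Type*} [Field F] (a b c d : F) (h : a * d - b * c = 1) :
    IsUnit c ∨ IsUnit a := by
  rcases eq_or_ne c 0 with rfl | hc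
  · right
    refine isUnit_iff_ne_zero.2 fun ha => ?_
    simp [ha] at h
  · exact Or.inl (isUnit_iff_ne_zero.2 hc)

/-- Reduction modulo `m`. -/
abbrev red (m : ℕ) : SL2 ℤ →* SL2 (ZMod m) := SpecialLinearGroup.map (Int.castRingHom (ZMod m))

/-- The group surjects modulo `m`. -/
def Onto (Γ : Subgroup (SL2 ℤ)) (m : ℕ) : Prop := Γ.map (red m) = ⊤

theorem Onto.exists {Γ : Subgroup (SL2 ℤ)} {m : ℕ} (h : Onto Γ m) (g : SL2 (ZMod m)) :
    ∃ γ ∈ Γ, red m γ = g := by
  have : g ∈ Γ.map (red m) := by
    rw [show Γ.map (red m) = ⊤ from h]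
    trivial
  simpa using this

theorem castHom_red {m k : ℕ} (h : k ∣ m) (γ : SL2 ℤ) :
    SpecialLinearGroup.map (ZMod.castHom h (ZMod k)) (red m γ) = red k γ := by
  rw [map_comp_apply]
  congr 2
  exact RingHom.ext_int _ _

end FA.StrongApprox
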