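import Fermat.Agent.StrongApproximation.Basic
import Mathlib.Data.Nat.Choose.Dvd
import Mathlib.Algebra.Field.ZMod
import Mathlib.Data.ZMod.Units
import Mathlib.LinearAlgebra.Matrix.CharP
import Mathlib.LinearAlgebra.Matrix.GeneralLinearGroup.Card
import Mathlib.GroupTheory.Perm.Cycle.Type
import Mathlib.Tactic.NoncommRing

/-!
# From a prime to all moduli without small prime factors

For `p ≥ 5` a subgroup of `SL₂ (ℤ / p ^ k)` which is everything modulo `p` is everything, and `p`
does not divide the order of `SL₂ (ℤ / b)` when the prime factors of `b` are smaller.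
-/

set_option autoImplicit false

noncomputable section

namespace FA.StrongApprox

open Matrix

/-- The binomial expansion to first order. -/
theorem one_add_pow_eq {A : Type*} [Ring A] (c : A) (n : ℕ) :
    ∃ W : A, Commute c W ∧ (1 + c) ^ n =
      1 + n • c + n.choose 2 • (c * c) + n.choose 3 • (c * c * c) +
      c * c * c * c * W := by
  induction n with
  | zero => exact ⟨0, Commute.zero_right c, by simp⟩
  | succ n ih =>
    obtain ⟨W, hc, hW⟩ := ih
    refine ⟨W + n.choose 3 • (1 : A) + c * W,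
      (hc.add_right ((Commute.one_right c).smul_right _)).add_right ((Commute.refl c).mul_right hc),
      ?_⟩
    have hch : (n + 1).choose 2 = n + n.choose 2 := by
      rw [Nat.choose_succ_succ, Nat.choose_one_right]
    have hch' : (n + 1).choose 3 = n.choose 2 + n.choose 3 := Nat.choose_succ_succ _ _
    rw [pow_succ, hW, hch, hch', mul_add, mul_one, succ_nsmul, add_nsmul, add_nsmul]
    simp only [add_mul, mul_add, smul_mul_assoc, mul_smul_comm, one_mul, mul_one, mul_assoc,
      hc.symm.eq]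
    abel

variable {p : ℕ} [hp : Fact p.Prime]

theorem dvd_choose_cast (hp5 : 5 ≤ p) {A : Type*} [Semiring A] {i : ℕ} (hi : i = 2 ∨ i = 3) :
    ∃ e : ℕ, ((p.choose i : ℕ) : A) = (p : A) ^ 1 * (e : A) := by
  obtain ⟨e, he⟩ := hp.out.dvd_choose_self (k := i) (by omega) (by omega)
  exact ⟨e, by rw [he, Nat.cast_mul, pow_one]⟩

omit hp in
/-- Powers of `p` are central. -/
theorem pow_cast_mul_mul {A : Type*} [Semiring A] (r s : ℕ) (X Y : A) :
    (p : A) ^ r * X * ((p : A) ^ s * Y) = (p : A) ^ (r + s) * (X * Y) := by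
  rw [pow_add, ((Nat.cast_commute p X).symm.pow_right s).mul_mul_mul_comm]

/-- `p`-th powers raise a congruence by one. -/
theorem pow_prime_succ (hp5 : 5 ≤ p) {A : Type*} [Ring A] (j : ℕ) (Z : A) :
    ∃ Y : A, (1 + (p : A) ^ (j + 1) * Z) ^ p =
      1 + (p : A) ^ (j + 2) * Z + (p : A) ^ (j + 3) * Y := by
  obtain ⟨W, -, hW⟩ := one_add_pow_eq ((p : A) ^ (j + 1) * Z) p
  obtain ⟨e₂, he₂⟩ := dvd_choose_cast (A := A) hp5 (Or.inl rfl)
  obtain ⟨e₃, he₃⟩ := dvd_choose_cast (A := A) hp5 (Or.inr rfl)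
  refine ⟨(p : A) ^ j * ((e₂ : A) * (Z * Z)) + (p : A) ^ (2 * j + 1) * ((e₃ : A) * (Z * Z * Z)) +
    (p : A) ^ (3 * j + 1) * (Z * Z * Z * Z * W), ?_⟩
  rw [hW, nsmul_eq_mul, nsmul_eq_mul, nsmul_eq_mul, he₂, he₃, pow_cast_mul_mul, pow_cast_mul_mul,
    pow_cast_mul_mul, pow_cast_mul_mul, pow_cast_mul_mul]
  rw [show (p : A) * ((p : A) ^ (j + 1) * Z) = (p : A) ^ (j + 2) * Z by
    rw [← mul_assoc, ← pow_succ']]
  simp only [mul_add, ← mul_assoc, ← pow_add, ← add_assoc]
  congr 1 <;> ring_nf

/-- The `p`-th power of a lift of a transvection. -/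
theorem pow_prime_transvection (hp5 : 5 ≤ p) {A : Type*} [Ring A] {E : A} (hE : E * E = 0) (X : A) :
    ∃ Y : A, (1 + (E + (p : A) * X)) ^ p = 1 + (p : A) * E + (p : A) ^ 2 * Y := by
  obtain ⟨W, -, hW⟩ := one_add_pow_eq (E + (p : A) * X) p
  obtain ⟨e₂, he₂⟩ := dvd_choose_cast (A := A) hp5 (Or.inl rfl)
  obtain ⟨e₃, he₃⟩ := dvd_choose_cast (A := A) hp5 (Or.inr rfl)
  set c := E + (p : A) * X with hc
  set Q := E * X + X * E + (p : A) * (X * X) with hQ
  have hcc : c * c = (p : A) ^ 1 * Q := by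
    rw [hc, hQ, add_mul, mul_add, mul_add, hE, pow_one, ← mul_assoc E, ← (Nat.cast_commute p E).eq,
      mul_assoc, mul_assoc, mul_assoc, ← mul_assoc X, ← (Nat.cast_commute p X).eq, mul_assoc]
    simp only [mul_add]
    abel
  have h4 : c * c * c * c * W = (p : A) ^ 2 * (Q * Q * W) := by
    rw [mul_assoc (c * c), hcc, pow_cast_mul_mul, mul_assoc]
  refine ⟨X + (e₂ : A) * Q + (e₃ : A) * (Q * c) + Q * Q * W, ?_⟩
  rw [hW, nsmul_eq_mul, nsmul_eq_mul, nsmul_eq_mul, he₂, he₃, h4, hcc, pow_cast_mul_mul,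
    mul_assoc ((p : A) ^ 1) Q c, pow_cast_mul_mul, hc, mul_add (p : A), ← mul_assoc (p : A) (p : A),
    ← pow_two]
  simp only [mul_add, ← add_assoc]

local notation "M2" => Matrix (Fin 2) (Fin 2)

theorem cast_matrix (R : Type*) [CommRing R] (a : ℕ) (X : M2 R) :
    ((a : ℕ) : M2 R) * X = (a : R) • X := by
  rw [← nsmul_eq_mul, Nat.cast_smul_eq_nsmul]

/-- A lift of a transvection has a power which is a transvection of the last level. -/
theorem exists_pow_eq (hp5 : 5 ≤ p) {R : Type*} [CommRing R] (k : ℕ) (X : M2 R) :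
    ∃ Y : M2 R, (1 + (!![0, 1; 0, 0] + (p : M2 R) * X)) ^ p ^ (k + 1) =
      1 + (p : M2 R) ^ (k + 1) * !![0, 1; 0, 0] + (p : M2 R) ^ (k + 2) * Y := by
  induction k with
  | zero =>
    rw [zero_add, pow_one, pow_one]
    exact pow_prime_transvection hp5 (by ext i j; fin_cases i <;> fin_cases j <;> simp) X
  | succ k ih =>
    obtain ⟨Y, hY⟩ := ih
    obtain ⟨Y', hY'⟩ := pow_prime_succ hp5 k (!![0, 1; 0, 0] + (p : M2 R) * Y)
    refine ⟨Y + Y', ?_⟩
    rw [pow_succ, pow_mul, hY, show (1 : M2 R) + (p : M2 R) ^ (k + 1) * !![0, 1; 0, 0] +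
      (p : M2 R) ^ (k + 2) * Y = 1 + (p : M2 R) ^ (k + 1) * (!![0, 1; 0, 0] + (p : M2 R) * Y) by
      rw [mul_add, ← mul_assoc, ← pow_succ, add_assoc], hY', mul_add, mul_add, ← mul_assoc,
      ← pow_succ]
    abel

theorem isUnit_zmod_pow {k : ℕ} (x : ZMod (p ^ (k + 1)))
    (h : ZMod.castHom (dvd_pow_self p k.succ_ne_zero) (ZMod p) x ≠ 0) : IsUnit x := by
  rw [← ZMod.natCast_zmod_val x, ZMod.isUnit_iff_coprime]
  refine Nat.Coprime.pow_right _ ((hp.out.coprime_iff_not_dvd.2 fun hd => h ?_).symm)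
  rw [← ZMod.natCast_zmod_val x, map_natCast]
  exact (ZMod.natCast_eq_zero_iff _ _).2 hd

theorem local_zmod_pow (k : ℕ) (a b c d : ZMod (p ^ (k + 1))) (h : a * d - b * c = 1) :
    IsUnit c ∨ IsUnit a := by
  have h' := congrArg (ZMod.castHom (dvd_pow_self p k.succ_ne_zero) (ZMod p)) h
  rw [map_sub, map_mul, map_mul, map_one] at h'
  exact (local_field (F := ZMod p) _ _ _ _ h').imp
    (fun hu => isUnit_zmod_pow c fun e => not_isUnit_zero (e ▸ hu))
    fun hu => isUnit_zmod_pow a fun e => not_isUnit_zero (e ▸ hu)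

/-- **Serre's lifting**, one step. -/
theorem eq_top_step (hp5 : 5 ≤ p) (k : ℕ) {H : Subgroup (SL2 (ZMod (p ^ (k + 2))))}
    (hH : H.map (SpecialLinearGroup.map (ZMod.castHom (pow_dvd_pow p (k + 1).le_succ)
      (ZMod (p ^ (k + 1))))) = ⊤) : H = ⊤ := by
  set π := ZMod.castHom (pow_dvd_pow p (k + 1).le_succ) (ZMod (p ^ (k + 1))) with hπ
  set q : ZMod (p ^ (k + 2)) := (p : ZMod (p ^ (k + 2))) ^ (k + 1) with hqdef
  have hqq : q * q = 0 := by
    rw [hqdef, ← pow_add, ← Nat.cast_pow, ZMod.natCast_eq_zero_iff]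
    exact pow_dvd_pow p (by omega)
  have hqp : q * p = 0 := by rw [hqdef, ← pow_succ, ← Nat.cast_pow, ZMod.natCast_self]
  have lift : ∀ g, ∃ h ∈ H, SpecialLinearGroup.map π h = g := fun g => by
    have : g ∈ H.map (SpecialLinearGroup.map π) := by rw [hH]; trivial
    simpa using this
  have hker : ∀ x : ZMod (p ^ (k + 2)), π x = 0 → ∃ y, x = q * y := fun x hx => by
    rw [← ZMod.natCast_zmod_val x, map_natCast, ZMod.natCast_eq_zero_iff] at hx
    obtain ⟨y, hy⟩ := hx
    exact ⟨(y : ZMod _), by rw [← ZMod.natCast_zmod_val x, hy, Nat.cast_mul, Nat.cast_pow]⟩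
  have hqs : (p : ZMod (p ^ (k + 2))) * (p : ZMod (p ^ (k + 2))) ^ k = q := (pow_succ' _ _).symm
  have hkerp : ∀ x : ZMod (p ^ (k + 2)), π x = 0 → ∃ y, x = (p : ZMod _) * y := fun x hx => by
    obtain ⟨y, rfl⟩ := hker x hx
    exact ⟨(p : ZMod _) ^ k * y, by rw [← mul_assoc, hqs]⟩
  obtain ⟨h₀, h₀mem, h₀eq⟩ := lift (U 1)
  have hdiff : ∀ i j, ∃ y, h₀.1 i j - (U (1 : ZMod (p ^ (k + 2)))).1 i j = q * y := fun i j =>
    hker _ (by
      rw [map_sub, sub_eq_zero]
      have e2 : SpecialLinearGroup.map π (U 1) = U 1 := by rw [map_U, map_one]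
      exact congrFun (congrFun (congrArg Subtype.val (h₀eq.trans e2.symm)) i) j)
  choose X hX using hdiff
  -- the deepest upper transvection
  have hUq : U q ∈ H := by
    let Z : M2 (ZMod (p ^ (k + 2))) := fun i j => (p : ZMod _) ^ k * X i j
    have h₀val : h₀.1 = 1 + (!![0, 1; 0, 0] + (p : M2 (ZMod (p ^ (k + 2)))) * Z) := by
      rw [cast_matrix]
      ext i j
      have := hX i j
      rw [sub_eq_iff_eq_add, ← hqs, mul_assoc] at this
      rw [this]
      fin_cases i <;> fin_cases j <;> simp [U, Z] <;> ring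
    obtain ⟨Y, hY⟩ := exists_pow_eq hp5 k Z
    have he : h₀ ^ p ^ (k + 1) = U q := by
      refine Subtype.ext ?_
      rw [SpecialLinearGroup.coe_pow, h₀val, hY, ← Nat.cast_pow, ← Nat.cast_pow, cast_matrix,
        cast_matrix, ZMod.natCast_self, zero_smul, add_zero]
      ext i j
      fin_cases i <;> fin_cases j <;> simp [U, hqdef]
    exact he ▸ H.pow_mem h₀mem _
  have conjU : ∀ g : SL2 (ZMod (p ^ (k + 2))), g * U q * g⁻¹ ∈ H := by
    intro g
    obtain ⟨h, hh, heq⟩ := lift (SpecialLinearGroup.map π g)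
    have hval : ∀ f : SL2 (ZMod (p ^ (k + 2))), (f * U q * f⁻¹).1 =
        1 + q • !![-(f.1 0 0 * f.1 1 0), f.1 0 0 * f.1 0 0;
          -(f.1 1 0 * f.1 1 0), f.1 0 0 * f.1 1 0] := by
      intro f
      have hd := f.2
      rw [det_fin_two] at hd
      ext i j
      fin_cases i <;> fin_cases j <;>
        simp [U, Matrix.mul_apply, Fin.sum_univ_two,
          SpecialLinearGroup.coe_inv, adjugate_fin_two]
      · linear_combination hd
      · ring
      · ring
      · linear_combination hd
    have hmul : ∀ i j, ∀ y, q * (h.1 i j * y) = q * (g.1 i j * y) := fun i j y => by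
      have := congrFun (congrFun (congrArg Subtype.val heq) i) j
      obtain ⟨z, hz⟩ := hkerp (h.1 i j - g.1 i j) (by rw [map_sub, sub_eq_zero]; exact this)
      rw [← sub_eq_zero, ← mul_sub, ← sub_mul, hz, ← mul_assoc, ← mul_assoc, hqp, zero_mul,
        zero_mul]
    have hmul' : ∀ i j i' j', q * (h.1 i j * h.1 i' j') = q * (g.1 i j * g.1 i' j') :=
      fun i j i' j' => by rw [hmul i j, mul_comm (g.1 i j), hmul i' j', mul_comm (g.1 i' j')]
    have e : g * U q * g⁻¹ = h * U q * h⁻¹ := by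
      refine Subtype.ext ?_
      rw [hval, hval]
      ext i j
      fin_cases i <;> fin_cases j <;> simp [mul_neg, hmul']
    rw [e]
    exact H.mul_mem (H.mul_mem hh hUq) (H.inv_mem hh)
  have hU : ∀ t, U (q * t) ∈ H := fun t => by
    have h := U_nsmul t.val q
    rw [ZMod.natCast_zmod_val, mul_comm] at h
    exact h ▸ H.pow_mem hUq _
  let w : SL2 (ZMod (p ^ (k + 2))) := ⟨!![0, -1; 1, 0], by simp [det_fin_two]⟩
  have hLq : L q ∈ H := by
    have h : (w * U q * w⁻¹)⁻¹ = L q := by
      refine inv_eq_of_mul_eq_one_right (Subtype.ext ?_)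
      ext i j
      fin_cases i <;> fin_cases j <;>
        simp [w, U, L, Matrix.mul_apply, Fin.sum_univ_two,
          SpecialLinearGroup.coe_inv, adjugate_fin_two]
    exact h ▸ H.inv_mem (conjU w)
  have hL : ∀ t, L (q * t) ∈ H := fun t => by
    have h := L_nsmul t.val q
    rw [ZMod.natCast_zmod_val, mul_comm] at h
    exact h ▸ H.pow_mem hLq _
  let D : ZMod (p ^ (k + 2)) → SL2 (ZMod (p ^ (k + 2))) := fun r =>
    ⟨!![1 + q * r, 0; 0, 1 - q * r], by
      rw [det_fin_two_of]
      linear_combination -(r * r) * hqq⟩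
  have hD : ∀ r, D r ∈ H := by
    have hD1 : D (-1) ∈ H := by
      have h : (L 1 * U q * (L 1)⁻¹) * U (q * -1) * L q = D (-1) := by
        refine Subtype.ext ?_
        ext i j
        fin_cases i <;> fin_cases j <;>
          simp [D, U, L, Matrix.mul_apply, Fin.sum_univ_two,
            SpecialLinearGroup.coe_inv, adjugate_fin_two]
        all_goals grobner
      exact h ▸ H.mul_mem (H.mul_mem (conjU _) (hU _)) hLq
    have hadd : ∀ r r', D (r + r') = D r * D r' := fun r r' => by
      refine Subtype.ext ?_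
      ext i j
      fin_cases i <;> fin_cases j <;> simp [D, Matrix.mul_apply, Fin.sum_univ_two]
      all_goals grobner
    have hn : ∀ n : ℕ, D ((n : ZMod (p ^ (k + 2))) * -1) ∈ H := by
      intro n
      induction n with
      | zero =>
        have : D 0 = 1 := Subtype.ext (by
          ext i j
          fin_cases i <;> fin_cases j <;> simp [D])
        simp [this, H.one_mem]
      | succ n ih => rw [Nat.cast_succ, add_one_mul, hadd]; exact H.mul_mem ih hD1
    intro r
    have := hn (-r).val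
    rwa [ZMod.natCast_zmod_val, mul_neg, mul_one, neg_neg] at this
  -- the kernel of the reduction
  have hlayer : ∀ g, SpecialLinearGroup.map π g = 1 → g ∈ H := by
    intro g hg
    have hY : ∀ i j, ∃ y, g.1 i j - (1 : M2 (ZMod (p ^ (k + 2)))) i j = q * y := fun i j =>
      hker _ (by
        have := congrFun (congrFun (congrArg Subtype.val hg) i) j
        rw [map_sub, sub_eq_zero]
        refine this.trans ?_
        rw [SpecialLinearGroup.coe_one, one_apply, one_apply, apply_ite π, map_one, map_zero])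
    choose Y hY using hY
    have hd := g.2
    rw [det_fin_two] at hd
    have h00 := hY 0 0
    have h01 := hY 0 1
    have h10 := hY 1 0
    have h11 := hY 1 1
    simp only [one_apply_eq, one_apply_ne (show (0 : Fin 2) ≠ 1 by decide),
      one_apply_ne (show (1 : Fin 2) ≠ 0 by decide), sub_zero, sub_eq_iff_eq_add] at h00 h01 h10 h11
    rw [h00, h01, h10, h11] at hd
    have htr : q * Y 1 1 = -(q * Y 0 0) := by
      linear_combination hd - (Y 0 0 * Y 1 1 - Y 0 1 * Y 1 0) * hqq
    have e : g = D (Y 0 0) * U (q * Y 0 1) * L (q * Y 1 0) := by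
      refine Subtype.ext ?_
      ext i j
      fin_cases i <;> fin_cases j <;>
        simp [D, U, L, Matrix.mul_apply, Fin.sum_univ_two, h00, h01, h10, h11]
      all_goals grobner
    exact e ▸ H.mul_mem (H.mul_mem (hD _) (hU _)) (hL _)
  refine eq_top_iff.2 fun g _ => ?_
  obtain ⟨h, hh, heq⟩ := lift (SpecialLinearGroup.map π g)
  have hm := H.mul_mem hh (hlayer (h⁻¹ * g) (by rw [map_mul, map_inv, heq, inv_mul_cancel]))
  rwa [mul_inv_cancel_left] at hm

/-- **Serre's lifting lemma**: onto modulo `p ≥ 5` gives onto modulo every power. -/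
theorem onto_pow (hp5 : 5 ≤ p) {Γ : Subgroup (SL2 ℤ)} (h : Onto Γ p) :
    ∀ k, Onto Γ (p ^ (k + 1)) := by
  intro k
  induction k with
  | zero =>
    show Onto Γ (p ^ 1)
    rw [pow_one]
    exact h
  | succ k ih =>
    refine eq_top_step hp5 k ?_
    rw [Subgroup.map_map]
    have : (SpecialLinearGroup.map (ZMod.castHom (pow_dvd_pow p (k + 1).le_succ)
        (ZMod (p ^ (k + 1))))).comp (red (p ^ (k + 2))) = red (p ^ (k + 1)) :=
      MonoidHom.ext fun γ => castHom_red _ γ
    rw [this]
    exact ih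

/-- There are no elements of order `p` in `GL₂` of a field with fewer than `p` elements. -/
theorem eq_one_of_pow_prime {F : Type*} [Field F] [Finite F] (hp5 : 5 ≤ p) (hlt : Nat.card F < p)
    (hq : (Nat.card F).Prime)
    {M : M2 F} (hM : M ^ p = 1) : M = 1 := by
  have := Fintype.ofFinite F
  set u : GL (Fin 2) F := (IsUnit.of_pow_eq_one hM hp.out.ne_zero).unit
  have hu : u ^ p = 1 := Units.ext hM
  rcases (Nat.dvd_prime hp.out).1 (orderOf_dvd_of_pow_eq_one hu) with h | h
  · exact congrArg Units.val (orderOf_eq_one_iff.1 h)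
  exfalso
  have h1 : p ∣ Nat.card (GL (Fin 2) F) := h ▸ orderOf_dvd_natCard u
  rw [Matrix.card_GL_field, Fin.prod_univ_two] at h1
  simp only [Fin.val_zero, Fin.val_one, pow_zero, pow_one] at h1
  rw [Nat.card_eq_fintype_card] at hlt hq
  obtain ⟨r, hr⟩ := Nat.exists_eq_add_of_le (Fintype.one_lt_card (α := F))
  rw [hr] at h1 hlt hq
  have hf : ((2 + r) ^ 2 - 1) * ((2 + r) ^ 2 - (2 + r)) =
      (3 + r) * ((1 + r) * ((2 + r) * (1 + r))) := by
    rw [show (2 + r) ^ 2 = r * r + 4 * r + 4 by ring,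
      show r * r + 4 * r + 4 - 1 = r * r + 4 * r + 3 by omega,
      show r * r + 4 * r + 4 - (2 + r) = r * r + 3 * r + 2 by omega]
    ring
  rw [show Nat.succ 1 = 2 from rfl, hf] at h1
  simp only [hp.out.dvd_mul] at h1
  rcases h1 with h1 | h1 | h1 | h1 <;> have hle := Nat.le_of_dvd (by omega) h1
  · have he : p = 3 + r := by omega
    have h2 : 2 ∣ p ∨ 2 ∣ Nat.succ 1 + r := by omega
    rcases h2 with h2 | h2
    · rcases (Nat.dvd_prime hp.out).1 h2 with h' | h' <;> omega
    · rcases (Nat.dvd_prime hq).1 h2 with h' | h' <;> omega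
  all_goals omega

/-- **`p` does not divide the order of `SL₂ (ℤ / b)`** if the prime factors of `b` are smaller. -/
theorem not_dvd_card (hp5 : 5 ≤ p) {b : ℕ} [NeZero b] (hb : ∀ q, q.Prime → q ∣ b → q < p) :
    ¬ p ∣ Nat.card (SL2 (ZMod b)) := by
  intro hd
  have : Finite (SL2 (ZMod b)) := Subtype.finite
  obtain ⟨g, hg⟩ := exists_prime_orderOf_dvd_card' p hd
  have hgp : g ^ p = 1 := hg ▸ pow_orderOf_eq_one g
  have hnil : ∀ i j, IsNilpotent (g.1 i j - (1 : M2 (ZMod b)) i j) := by
    intro i j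
    refine ⟨b, ?_⟩
    rw [← ZMod.natCast_zmod_val (g.1 i j - (1 : M2 (ZMod b)) i j), ← Nat.cast_pow,
      ZMod.natCast_eq_zero_iff]
    set n := (g.1 i j - (1 : M2 (ZMod b)) i j).val with hn
    rcases Nat.eq_zero_or_pos n with h0 | hpos
    · simp [h0, zero_pow (NeZero.ne b)]
    rw [← Nat.factorization_le_iff_dvd (NeZero.ne b) (pow_ne_zero _ hpos.ne')]
    intro q
    by_cases hq : q ∈ b.primeFactors
    · have hqp := Nat.prime_of_mem_primeFactors hq
      have hqb := Nat.dvd_of_mem_primeFactors hq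
      have : Fact q.Prime := ⟨hqp⟩
      have hdiv : q ∣ n := by
        rw [← ZMod.natCast_eq_zero_iff]
        have hM : (SpecialLinearGroup.map (ZMod.castHom hqb (ZMod q)) g).1 ^ p = 1 := by
          rw [← SpecialLinearGroup.coe_pow, ← map_pow, hgp, map_one, SpecialLinearGroup.coe_one]
        have h := congrFun (congrFun
          (eq_one_of_pow_prime (F := ZMod q) hp5 (by rw [Nat.card_zmod]; exact hb q hqp hqb)
            (by rw [Nat.card_zmod]; exact hqp) hM) i) j
        rw [← map_natCast (ZMod.castHom hqb (ZMod q)) n, hn, ZMod.natCast_zmod_val, map_sub,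
          sub_eq_zero]
        refine h.trans ?_
        rw [one_apply, one_apply, apply_ite (ZMod.castHom hqb (ZMod q)), map_one, map_zero]
      rw [Nat.factorization_pow, Finsupp.smul_apply, smul_eq_mul]
      have h1 : 1 ≤ n.factorization q :=
          (Nat.Prime.dvd_iff_one_le_factorization hqp hpos.ne').1 hdiv
      have h2 : b.factorization q ≤ b := (Nat.factorization_lt q (NeZero.ne b)).le
      exact h2.trans (Nat.le_mul_of_pos_right b h1)
    · rw [← Nat.support_factorization, Finsupp.notMem_support_iff] at hq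
      omega
  have hp0 : IsUnit ((p : ℕ) : ZMod b) := by
    rw [ZMod.isUnit_iff_coprime]
    exact hp.out.coprime_iff_not_dvd.2 fun h => lt_irrefl p (hb p hp.out h)
  set X : M2 (ZMod b) := g.1 - 1 with hX
  have hXn : IsNilpotent X := by
    have hd : IsNilpotent X.det := by
      rw [det_fin_two]
      exact Commute.isNilpotent_sub (Commute.all _ _)
        ((Commute.all _ _).isNilpotent_mul_right (hnil 0 0))
        ((Commute.all _ _).isNilpotent_mul_right (hnil 0 1))
    have ht : IsNilpotent X.trace := by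
      rw [trace_fin_two]
      exact Commute.isNilpotent_add (Commute.all _ _) (hnil 0 0) (hnil 1 1)
    have hch : X * X = X.trace • X - X.det • (1 : M2 (ZMod b)) := by
      ext i j
      fin_cases i <;> fin_cases j <;>
        simp [trace_fin_two, det_fin_two, Matrix.mul_apply, Fin.sum_univ_two] <;> ring
    suffices h : IsNilpotent (X * X) by
      obtain ⟨r, hr⟩ := h
      exact ⟨2 * r, by rw [pow_mul, pow_two, hr]⟩
    rw [hch]
    refine Commute.isNilpotent_sub (((Commute.one_right X).smul_left _).smul_right _) ?_ ?_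
    · obtain ⟨r, hr⟩ := ht
      exact ⟨r, by rw [smul_pow, hr, zero_smul]⟩
    · obtain ⟨r, hr⟩ := hd
      exact ⟨r, by rw [smul_pow, hr, zero_smul]⟩
  have hg1 : g.1 = 1 := by
    obtain ⟨W, hW, he⟩ := one_add_pow_eq X p
    rw [hX, add_sub_cancel, ← SpecialLinearGroup.coe_pow, hgp, SpecialLinearGroup.coe_one,
      ← hX] at he
    have hR : X * ((p : M2 (ZMod b)) + ((p.choose 2 : M2 (ZMod b)) * X +
        (p.choose 3 : M2 (ZMod b)) * (X * X) + X * X * X * W)) = 0 := by
      rw [add_assoc, add_assoc, add_assoc, left_eq_add, nsmul_eq_mul, nsmul_eq_mul,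
        nsmul_eq_mul] at he
      simp only [mul_add, ← mul_assoc, ← (Nat.cast_commute (p.choose 2) X).eq,
        ← (Nat.cast_commute (p.choose 3) X).eq, ← (Nat.cast_commute p X).eq]
      simp only [← mul_assoc] at he
      rw [← he]
      abel
    have hpu : IsUnit ((p : ℕ) : M2 (ZMod b)) := by
      rw [← map_natCast (algebraMap (ZMod b) (M2 (ZMod b)))]
      exact hp0.map _
    have hu : IsUnit ((p : M2 (ZMod b)) + ((p.choose 2 : M2 (ZMod b)) * X +
        (p.choose 3 : M2 (ZMod b)) * (X * X) + X * X * X * W)) := by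
      refine IsNilpotent.isUnit_add_left_of_commute ?_ hpu (Nat.commute_cast _ _)
      have hfac : (p.choose 2 : M2 (ZMod b)) * X + (p.choose 3 : M2 (ZMod b)) * (X * X) +
          X * X * X * W = X * ((p.choose 2 : M2 (ZMod b)) + (p.choose 3 : M2 (ZMod b)) * X +
            X * X * W) := by
        simp only [mul_add, ← mul_assoc, ← (Nat.cast_commute (p.choose 2) X).eq,
          ← (Nat.cast_commute (p.choose 3) X).eq]
      rw [hfac]
      exact (((Nat.commute_cast X _).add_right ((Nat.commute_cast X _).mul_right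
        (Commute.refl X))).add_right (((Commute.refl X).mul_right
          (Commute.refl X)).mul_right hW)).isNilpotent_mul_right hXn
    rw [← sub_eq_zero, ← hX]
    exact (hu.mul_left_eq_zero).1 hR
  rw [show g = 1 from Subtype.ext hg1, orderOf_one] at hg
  exact hp.out.ne_one hg.symm

end FA.StrongApprox

end
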